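import Fermat.Agent.LT.T6.H865.TwEllSpec
import Fermat.Agent.LT.T6.H220.UnrInt

/-!
# Row LT, tower T6, leaf T6.13.3b.6 `FixSigmaC865` (helper241), OFF-MAIN

`fixSigmaC241 : Fermat.Agent.LT.T6.H865.FixSigmaC865` (registry 1323; the Prop of
`T6/H865/TwEllSpec.lean`, sha256 ce4fd7ce, VERBATIM): for `k'/k` unramified cyclic of prime degree
with generator `s`, a vertex of the tree of `k'` fixed by `s` is the image of a vertex of the tree
of `k`.

Route: Iwasawa form `[x] = [(ϖ^n, c; 0, 1)]` with `ϖ = i(ϖ_k)` (helper129 `iwasawa129`); the vertex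
is `s`-fixed iff `s c - c ∈ ϖ^n 𝒪'`; with `θ` integral of trace one (helper220
`exists_tr_eq_one220`), `c₀ = tr(θ c)` is `s`-fixed, `c₀ = i c₁`, and `c₀ ≡ c mod ϖ^n 𝒪'`;
`x₀ = (ϖ_k^n, c₁; 0, 1)`.
-/

set_option autoImplicit false
set_option linter.unusedSectionVars false

open Matrix

noncomputable section

namespace Fermat.Agent.LT.T6.H241

open Fermat.Agent.LT.T6 Fermat.Agent.LT.T6.H340 Fermat.Agent.LT.H129 Fermat.Agent.LT.T6.H220
  Fermat.Agent.LT.T6.H865

section OneField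

variable {k : Type} [Field k] [Valued k Γ₀]

/-- The matrix `(a, c; 0, 1)`. -/
def iwa241 (a c : k) (ha : a ≠ 0) : GL (Fin 2) k :=
  mkGL129 a c 0 1 (by simpa using ha)

omit [Valued k Γ₀] in
theorem coe_iwa241 (a c : k) (ha : a ≠ 0) :
    ((iwa241 a c ha : GL (Fin 2) k) : Matrix (Fin 2) (Fin 2) k) = !![a, c; 0, 1] := rfl

omit [Valued k Γ₀] in
/-- `(a, c; 0, 1) = (a, c'; 0, 1) · (1, (c - c') / a; 0, 1)`. -/
theorem iwa241_eq_mul_upper (a c c' : k) (ha : a ≠ 0) :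
    iwa241 a c ha = iwa241 a c' ha * upperU129 ((c - c') * a⁻¹) := by
  apply ext_mat129
  rw [Matrix.GeneralLinearGroup.coe_mul, coe_iwa241, coe_iwa241, upperU129, coe_mkGL129]
  ext p r
  fin_cases p <;> fin_cases r <;> simp [Matrix.mul_apply, Fin.sum_univ_two]
  field_simp
  ring

/-- A unipotent matrix of Cartan distance `0` is integral. -/
theorem val_le_one_of_cdist_upperU241 (d : k) (h : cdist340 (upperU129 d) = 0) :
    Valued.v d ≤ 1 := by
  have h1 := (cdist340_eq_iff (upperU129 d) 0).1 h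
  have hdet : ((upperU129 d : GL (Fin 2) k) : Matrix (Fin 2) (Fin 2) k).det = 1 := by
    rw [upperU129, det_mkGL340]
    simp
  rw [hdet, map_one, Nat.cast_zero, WithZero.exp_zero, mul_one] at h1
  have h2 : entryMax (upperU129 d) = 1 := by
    rcases pow_eq_one_iff.1 h1 with h | h
    · exact h
    · exact absurd h two_ne_zero
  have h3 := entry_le_entryMax129 (upperU129 d) 0 1
  rw [h2] at h3
  simpa [upperU129] using h3

/-- An integral unipotent matrix has Cartan distance `0`. -/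
theorem cdist_upperU_of_val_le_one241 (d : k) (h : Valued.v d ≤ 1) :
    cdist340 (upperU129 d) = 0 :=
  cdist340_of_inU ((inU_zero_iff129 _).2 (isMaxCpt129_upperU ((mem_vO129 d).2 h)))

/-- Two Iwasawa matrices with the same diagonal define the same vertex iff the difference of the
off-diagonal entries is integral relative to the diagonal. -/
theorem btMk_iwa_eq_iff241 (a c c' : k) (ha : a ≠ 0) :
    btMk340 (iwa241 a c' ha) = btMk340 (iwa241 a c ha) ↔ Valued.v ((c - c') * a⁻¹) ≤ 1 := by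
  rw [btMk340_eq_iff, iwa241_eq_mul_upper a c c' ha, inv_mul_cancel_left]
  exact ⟨val_le_one_of_cdist_upperU241 _, cdist_upperU_of_val_le_one241 _⟩

/-- **Iwasawa form of a vertex**: every vertex is `[(ϖ^n, c; 0, 1)]`. -/
theorem exists_btMk_iwa241 {ϖ : k} (hϖ : Valued.v ϖ = WithZero.exp (-1 : ℤ))
    (x : GL (Fin 2) k) :
    ∃ (n : ℤ) (c : k), btMk340 (iwa241 (ϖ ^ n) c (zpow_ne_zero n (unif_ne_zero340 hϖ)))
      = btMk340 x := by
  have hϖ0 : ϖ ≠ 0 := unif_ne_zero340 hϖ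
  obtain ⟨b, u, hx, hb, hu⟩ := iwasawa129 (vO129 k) x
  have hb10 : (b : Matrix (Fin 2) (Fin 2) k) 1 0 = 0 := hb
  have hdet := det_ne_zero129 b
  rw [hb10, mul_zero, sub_zero] at hdet
  set a : k := (b : Matrix (Fin 2) (Fin 2) k) 0 0 with ha
  set β : k := (b : Matrix (Fin 2) (Fin 2) k) 0 1 with hβ
  set d : k := (b : Matrix (Fin 2) (Fin 2) k) 1 1 with hd
  have ha0 : a ≠ 0 := left_ne_zero_of_mul hdet
  have hd0 : d ≠ 0 := right_ne_zero_of_mul hdet
  have had : Valued.v (a / d) ≠ 0 := by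
    rw [ne_eq, map_eq_zero]
    exact div_ne_zero ha0 hd0
  set n : ℤ := - WithZero.log (Valued.v (a / d)) with hn
  have hvn : Valued.v (ϖ ^ n) = Valued.v (a / d) := by
    rw [map_zpow₀, hϖ, ← WithZero.exp_zsmul, hn]
    simp only [smul_eq_mul, mul_neg, mul_one, neg_neg]
    rw [WithZero.exp_log had]
  have hϖn : ϖ ^ n ≠ 0 := zpow_ne_zero n hϖ0
  set ε : k := (a / d) * (ϖ ^ n)⁻¹ with hε
  have hε0 : ε ≠ 0 := mul_ne_zero (div_ne_zero ha0 hd0) (inv_ne_zero hϖn)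
  have hvε : Valued.v ε = 1 := by
    rw [hε, map_mul, map_inv₀, hvn, mul_inv_cancel₀ had]
  have hw : InU 0 (diag129 ε 1 hε0 one_ne_zero * u) :=
    inU_zero_mul129
      ((inU_zero_iff129 _).2 (isMaxCpt129_diag_unit hε0 one_ne_zero hvε (by simp)))
      ((inU_zero_iff129 _).2 hu)
  refine ⟨n, β / d, ?_⟩
  rw [btMk340_eq_iff]
  have hxx : x = iwa241 (ϖ ^ n) (β / d) hϖn * (scal340 d hd0 * (diag129 ε 1 hε0 one_ne_zero * u)) := by
    rw [hx, ← mul_assoc, ← mul_assoc]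
    congr 1
    apply ext_mat129
    rw [Matrix.GeneralLinearGroup.coe_mul, Matrix.GeneralLinearGroup.coe_mul, coe_iwa241,
      coe_scal340, diag129, coe_mkGL129, eta129 b]
    ext p r
    fin_cases p <;> fin_cases r <;>
      simp [Matrix.mul_apply, Fin.sum_univ_two, ← ha, ← hβ, ← hd, hb10, hε]
    · field_simp
    · field_simp
  rw [hxx, inv_mul_cancel_left, cdist340_scal_mul]
  exact cdist340_of_inU hw

end OneField

section TwoFields

variable {k k' : Type} [Field k] [Field k'] [Valued k Γ₀] [Valued k' Γ₀]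

/-- The iterates of `s` move `c` by at most `B` if `s` does. -/
theorem val_pow_sub_le241 (s : k' ≃+* k') (hs : ∀ y : k', Valued.v (s y) = Valued.v y)
    (c : k') (B : Γ₀) (h : Valued.v (c - s c) ≤ B) (j : ℕ) :
    Valued.v (c - (s ^ j) c) ≤ B := by
  induction j with
  | zero => simp
  | succ j ih =>
    have e : c - (s ^ (j + 1)) c = (c - s c) + s (c - (s ^ j) c) := by
      rw [pow_succ', RingAut.mul_apply, map_sub]
      ring
    rw [e]
    refine (Valuation.map_add _ _ _).trans (max_le h ?_)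
    rw [hs]
    exact ih

/-- **T6.13.3b.6 (FixSigma).** -/
theorem fixSigmaC241 : FixSigmaC865 := by
  intro k k' _ _ _ _ q l i s hU x hfix
  classical
  have hext := hU.hext
  obtain ⟨ϖk, hϖk⟩ := hU.hk.unif
  have hϖk0 : ϖk ≠ 0 := unif_ne_zero340 hϖk
  set ϖ : k' := i ϖk with hϖdef
  have hϖ : Valued.v ϖ = WithZero.exp (-1 : ℤ) := by rw [hϖdef, val_i220 hext, hϖk]
  have hϖ0 : ϖ ≠ 0 := unif_ne_zero340 hϖ
  have hsϖ : s ϖ = ϖ := hext.cyc.fix_i ϖk
  obtain ⟨n, c, h1⟩ := exists_btMk_iwa241 hϖ x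
  have hϖn : ϖ ^ n ≠ 0 := zpow_ne_zero n hϖ0
  have hsϖn : s (ϖ ^ n) = ϖ ^ n := by rw [map_zpow₀, hsϖ]
  -- the vertex is `s`-fixed
  have h2 : btAut340 s hext.val_s (btMk340 (iwa241 (ϖ ^ n) c hϖn)) =
      btMk340 (iwa241 (ϖ ^ n) c hϖn) := by
    rw [h1]
    exact hfix
  have hgl : glAut s (iwa241 (ϖ ^ n) c hϖn) = iwa241 (ϖ ^ n) (s c) hϖn := by
    apply ext_mat129
    ext p r
    rw [coe_glAut340, coe_iwa241, coe_iwa241]
    fin_cases p <;> fin_cases r <;> simp [hsϖn]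
  rw [btAut340_mk, hgl, btMk_iwa_eq_iff241] at h2
  -- `s c - c ∈ ϖ^n 𝒪'`
  set B : Γ₀ := Valued.v (ϖ ^ n) with hB
  have hB0 : B ≠ 0 := by rw [hB, ne_eq, map_eq_zero]; exact hϖn
  have hcs : Valued.v (c - s c) ≤ B := by
    rw [map_mul, map_inv₀] at h2
    have := mul_le_mul' h2 (le_refl B)
    rwa [mul_assoc, inv_mul_cancel₀ hB0, mul_one, one_mul] at this
  -- the trace-one element
  obtain ⟨θ, hθ, htr⟩ := exists_tr_eq_one220 hU.hk hU.hk' hext hU.hl
  set c₀ : k' := tr220 s l (θ * c) with hc₀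
  have hfix₀ : s c₀ = c₀ := s_tr220 s l (θ * c) (hext.cyc.order _)
  obtain ⟨c₁, hc₁⟩ := hext.cyc.fixed c₀ hfix₀
  have hdiff : c - c₀ = ∑ j ∈ Finset.range l, (s ^ j) θ * (c - (s ^ j) c) := by
    have e1 : ∑ j ∈ Finset.range l, (s ^ j) θ * (c - (s ^ j) c) =
        (∑ j ∈ Finset.range l, (s ^ j) θ) * c - ∑ j ∈ Finset.range l, (s ^ j) (θ * c) := by
      rw [Finset.sum_mul, ← Finset.sum_sub_distrib]
      refine Finset.sum_congr rfl fun j _ => ?_
      rw [map_mul]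
      ring
    rw [e1]
    have e2 : ∑ j ∈ Finset.range l, (s ^ j) θ = 1 := htr
    rw [e2, one_mul]
    rfl
  have hc₀c : Valued.v (c - c₀) ≤ B := by
    rw [hdiff]
    refine Valuation.map_sum_le _ fun j _ => ?_
    rw [map_mul, val_pow_s220 s hext.val_s]
    calc Valued.v θ * Valued.v (c - (s ^ j) c) ≤ 1 * B :=
          mul_le_mul' hθ (val_pow_sub_le241 s hext.val_s c B hcs j)
      _ = B := one_mul B
  -- the vertex over `k`
  have hϖkn : ϖk ^ n ≠ 0 := zpow_ne_zero n hϖk0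
  refine ⟨iwa241 (ϖk ^ n) c₁ hϖkn, ?_⟩
  have hmap : Matrix.GeneralLinearGroup.map i (iwa241 (ϖk ^ n) c₁ hϖkn) =
      iwa241 (ϖ ^ n) c₀ hϖn := by
    apply ext_mat129
    ext p r
    rw [coe_iwa241]
    show i (((iwa241 (ϖk ^ n) c₁ hϖkn : GL (Fin 2) k) : Matrix (Fin 2) (Fin 2) k) p r) = _
    rw [coe_iwa241]
    fin_cases p <;> fin_cases r <;> simp [hc₁, hϖdef, map_zpow₀]
  rw [hmap, ← h1, btMk_iwa_eq_iff241, map_mul, map_inv₀]
  calc Valued.v (c - c₀) * (Valued.v (ϖ ^ n))⁻¹ ≤ B * (Valued.v (ϖ ^ n))⁻¹ :=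
        mul_le_mul' hc₀c (le_refl _)
    _ = 1 := by rw [hB, mul_inv_cancel₀ hB0]

end TwoFields

end Fermat.Agent.LT.T6.H241
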